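import Fermat.Agent.Lib.KW.ChartSetup
import Fermat.Agent.Lib.KW.H530.Quot
import Fermat.Agent.Lib.KW.H530.Tame
import Fermat.Agent.Lib.KW.H857.DD
import Fermat.Agent.Lib.KW.H257.Exp

/-!
# Lib/KW — piece CHART  (helper650)

`exists_chart` (exact statement of the KW skeleton): for a coordinate `u` of a function field
`F / K` (`K` algebraically closed of characteristic `0`) there is a chart basis `b`
(`KW.IsChartBasis K u b`: a `K[u]`-basis of the functions regular wherever `u` is) whose
discriminant `discrF K u b = Du(u)` satisfies

  `deg Du = ∑ᶠ v ∈ {v | 0 ≤ ord_v u}, ord_v (du)`   (finite part of the divisor of `du`).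

Proof: `S = integralClosure K[X] F` (`ChartSetup`), `deg disc = dim_K S / Different` (DD, helper857)
`= #prime factors of the Different` (QUOT, helper530), exponent of `q` in the Different
`= e_q - 1` (TAME, helper530) `= ord_q (u - a) - 1 = ord_q (du)` (EXP, helper257), and the
dictionary `HeightOneSpectrum S ≃ {v | 0 ≤ ord_v u}` (`Lib/FF/PrimePlace`, helper220).
-/

set_option autoImplicit false
set_option linter.unusedSectionVars false
set_option linter.style.haveILetI false

noncomputable section

namespace Fermat.Agent.Lib.KW

open AlgebraicCurve Polynomial IntermediateField IsDedekindDomain KaehlerDifferential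
open UniqueFactorizationMonoid
open Fermat.Agent.S24.FF

attribute [local instance] FractionRing.liftAlgebra FractionRing.isScalarTower_liftAlgebra

variable {K F : Type*} [Field K] [Field F] [Algebra K F] [IsAlgClosed K] [CharZero K]
variable (u : F) [Algebra K[X] F] [IsScalarTower K K[X] F]
variable (hX : algebraMap K[X] F X = u) [hc : IsCoord K u]

include hX hc

/-- The residue fields of the integral closure of `K[u]` are `K`. -/
theorem residue_surjective (P : Ideal (integralClosure K[X] F)) (hP : P.IsMaximal) :
    Function.Surjective (algebraMap K (integralClosure K[X] F ⧸ P)) := by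
  haveI := finite_closure u hX
  letI := Ideal.Quotient.field P
  haveI : Algebra.FiniteType K[X] (integralClosure K[X] F) := inferInstance
  haveI : Algebra.FiniteType K (integralClosure K[X] F) :=
    Algebra.FiniteType.trans (S := K[X]) inferInstance inferInstance
  haveI : Algebra.FiniteType K (integralClosure K[X] F ⧸ P) := inferInstance
  haveI : Module.Finite K (integralClosure K[X] F ⧸ P) :=
    finite_of_finite_type_of_isJacobsonRing K _
  exact (IsAlgClosed.algebraMap_bijective_of_isIntegral (k := K)).2

variable [FaithfulSMul K[X] F] [FiniteDimensional (FractionRing K[X]) F]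
  [IsDedekindDomain (integralClosure K[X] F)] [Module.Finite K[X] (integralClosure K[X] F)]
  [IsFractionRing (integralClosure K[X] F) F]

variable {ι : Type*} [Fintype ι] [DecidableEq ι]
  (b₀ : Module.Basis ι K[X] (integralClosure K[X] F))

/-- **CH3a**.  The degree of the discriminant is the number of prime factors of the different. -/
theorem natDegree_discr_eq_card_factors :
    (Algebra.discr K[X] b₀).natDegree =
      Multiset.card (normalizedFactors (differentIdeal K[X] (integralClosure K[X] F))) := by
  rw [H857.natDegree_discr_eq_finrank_quotient b₀]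
  exact (H530.finrank_quotient_eq_card_factors (residue_surjective u hX) _
    differentIdeal_ne_bot).2

omit [IsAlgClosed K] [CharZero K] hX hc [FaithfulSMul K[X] F]
  [FiniteDimensional (FractionRing K[X]) F] [Module.Finite K[X] (integralClosure K[X] F)] in
/-- The order at the place of `q` of an element of `S` is the multiplicity of `q` in the
factorisation of the principal ideal. -/
theorem ord_placeOf_eq_count (q : HeightOneSpectrum (integralClosure K[X] F))
    {x : integralClosure K[X] F} (hx : x ≠ 0) :
    (Fermat.Agent.Lib.FF.placeOf K q : Place K F).ord (x : F) =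
      ((normalizedFactors (Ideal.span {x})).count q.asIdeal : ℤ) := by
  classical
  rw [Fermat.Agent.Lib.FF.ord_placeOf]
  have h1 : q.valuation F (algebraMap (integralClosure K[X] F) F x) = q.intValuation x :=
    q.valuation_of_algebraMap x
  have h1' : q.valuation F (x : F) = q.intValuation x := h1
  rw [h1', q.intValuation_eq_exp_neg_multiplicity hx]
  have hI : Ideal.span {x} ≠ ⊥ := by rwa [Ne, Ideal.span_singleton_eq_bot]
  have h2 := emultiplicity_eq_count_normalizedFactors q.prime.irreducible hI
  rw [normalize_eq] at h2
  rw [multiplicity_eq_of_emultiplicity_eq_some h2]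
  simp

/-- **CH3b**.  The exponent of `q` in the different is the order of `du` at the place of `q`. -/
theorem count_differentIdeal_eq_ordDifferential
    (q : HeightOneSpectrum (integralClosure K[X] F)) :
    ((normalizedFactors (differentIdeal K[X] (integralClosure K[X] F))).count q.asIdeal : ℤ) =
      (Fermat.Agent.Lib.FF.placeOf K q : Place K F).ordDifferential (D K F u) := by
  classical
  set v : Place K F := Fermat.Agent.Lib.FF.placeOf K q with hv
  have hu0 : 0 ≤ v.ord u := ord_nonneg_of_mem v
    (Fermat.Agent.Lib.FF.algebraMap_mem_placeOf q ⟨u, X_mem_closure u hX⟩)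
  haveI : Algebra.IsAlgebraic K⟮u⟯ F := Algebra.IsAlgebraic.of_finite _ _
  obtain ⟨a, ha⟩ := exists_ord_sub_pos v u hu0
  -- the element `u - a` of `S`
  have hmem : u - algebraMap K F a ∈ integralClosure K[X] F := by
    have : algebraMap K[X] F (X - C a) = u - algebraMap K F a := by
      rw [algebraMap_eq_aeval u hX, map_sub, aeval_X, aeval_C]
    rw [← this]
    exact (integralClosure K[X] F).algebraMap_mem _
  set x₀ : integralClosure K[X] F := ⟨u - algebraMap K F a, hmem⟩ with hx₀
  have hx₀' : algebraMap K[X] (integralClosure K[X] F) (X - C a) = x₀ := by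
    apply Subtype.ext
    show algebraMap K[X] F (X - C a) = u - algebraMap K F a
    rw [algebraMap_eq_aeval u hX, map_sub, aeval_X, aeval_C]
  have hx₀ne : x₀ ≠ 0 := by
    intro h
    have h1 : (x₀ : F) = 0 := by rw [h]; rfl
    have h2 : u - algebraMap K F a = 0 := h1
    rw [h2, Place.ord_zero] at ha
    exact lt_irrefl _ ha
  -- the prime `p = (X - a)`
  set p : Ideal K[X] := Ideal.span {X - C a} with hp
  haveI hpmax : p.IsMaximal :=
    PrincipalIdealRing.isMaximal_of_irreducible (Polynomial.irreducible_X_sub_C a)
  have hpne : p ≠ ⊥ := by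
    rw [hp, Ne, Ideal.span_singleton_eq_bot]
    exact Polynomial.X_sub_C_ne_zero a
  haveI : CharZero (K[X] ⧸ p) :=
    charZero_of_injective_algebraMap (R := K) (algebraMap K (K[X] ⧸ p)).injective
  have hx₀q : x₀ ∈ q.asIdeal := by
    rw [← Fermat.Agent.Lib.FF.center_placeOf (K := K) (F := F) q,
      Fermat.Agent.Lib.FF.mem_center_iff_ord_pos _ _ hx₀ne]
    exact ha
  haveI : q.asIdeal.LiesOver p := by
    constructor
    refine hpmax.eq_of_le ?_ ?_
    · intro h
      have h1 : (1 : K[X]) ∈ q.asIdeal.under K[X] := by rw [h]; trivial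
      rw [Ideal.under_def, Ideal.mem_comap, map_one] at h1
      exact q.isPrime.ne_top ((Ideal.eq_top_iff_one _).mpr h1)
    · rw [hp, Ideal.span_le, Set.singleton_subset_iff, SetLike.mem_coe, Ideal.under_def,
        Ideal.mem_comap, hx₀']
      exact hx₀q
  have htame := H530.count_differentIdeal_eq p hpne q.asIdeal q.ne_bot
  have hmap : p.map (algebraMap K[X] (integralClosure K[X] F)) = Ideal.span {x₀} := by
    rw [hp, Ideal.map_span, Set.image_singleton, hx₀']
  rw [hmap] at htame
  have hord := ord_placeOf_eq_count (K := K) q hx₀ne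
  have hexp := H257.ordDifferential_D_of_ord_sub_ne_zero u v u a ha.ne'
  rw [hexp, htame]
  have hcnt : 1 ≤ (normalizedFactors (Ideal.span {x₀})).count q.asIdeal := by
    have : (0 : ℤ) < ((normalizedFactors (Ideal.span {x₀})).count q.asIdeal : ℤ) := by
      rw [← hord]; exact ha
    exact_mod_cast this
  rw [Nat.cast_sub hcnt, ← hord]
  rfl

omit [IsAlgClosed K] [CharZero K] hX hc [FaithfulSMul K[X] F]
  [FiniteDimensional (FractionRing K[X]) F] [Module.Finite K[X] (integralClosure K[X] F)]
  [IsFractionRing (integralClosure K[X] F) F] in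
/-- The number of prime factors of a nonzero ideal as a `finsum` over the height one spectrum. -/
theorem finsum_count_eq_card {I : Ideal (integralClosure K[X] F)} (hI : I ≠ ⊥) :
    (Function.support fun q : HeightOneSpectrum (integralClosure K[X] F) =>
        ((normalizedFactors I).count q.asIdeal : ℤ)).Finite ∧
      ∑ᶠ q : HeightOneSpectrum (integralClosure K[X] F),
        ((normalizedFactors I).count q.asIdeal : ℤ) = Multiset.card (normalizedFactors I) := by
  classical
  -- the finite set of prime factors, as height one primes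
  have hprime : ∀ P ∈ (normalizedFactors I).toFinset, P.IsPrime ∧ P ≠ ⊥ := by
    intro P hP
    rw [Multiset.mem_toFinset, Ideal.mem_normalizedFactors_iff hI] at hP
    refine ⟨hP.1, fun h => hI ?_⟩
    rw [eq_bot_iff, ← h]
    exact hP.2
  let T : Finset (HeightOneSpectrum (integralClosure K[X] F)) :=
    (normalizedFactors I).toFinset.attach.image
      (fun P => ⟨P.1, (hprime P.1 P.2).1, (hprime P.1 P.2).2⟩)
  have hT : ∀ q : HeightOneSpectrum (integralClosure K[X] F),
      q ∈ T ↔ q.asIdeal ∈ normalizedFactors I := by
    intro q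
    simp only [T, Finset.mem_image, Finset.mem_attach, true_and, Subtype.exists,
      Multiset.mem_toFinset]
    constructor
    · rintro ⟨P, hP, rfl⟩
      exact hP
    · intro h
      exact ⟨q.asIdeal, h, HeightOneSpectrum.ext rfl⟩
  have hsupp : (Function.support fun q : HeightOneSpectrum (integralClosure K[X] F) =>
        ((normalizedFactors I).count q.asIdeal : ℤ)) ⊆ T := by
    intro q hq
    rw [Function.mem_support] at hq
    rw [Finset.mem_coe, hT]
    by_contra h
    exact hq (by rw [Multiset.count_eq_zero_of_notMem h]; rfl)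
  refine ⟨T.finite_toSet.subset hsupp, ?_⟩
  rw [finsum_eq_sum_of_support_subset _ hsupp, ← Multiset.toFinset_sum_count_eq, Nat.cast_sum]
  have hinj : Set.InjOn (HeightOneSpectrum.asIdeal (R := integralClosure K[X] F)) T :=
    fun q _ q' _ h => HeightOneSpectrum.ext h
  rw [← Finset.sum_image (f := fun a => ((normalizedFactors I).count a : ℤ)) hinj]
  refine Finset.sum_congr ?_ fun _ _ => rfl
  ext P
  rw [Finset.mem_image, Multiset.mem_toFinset]
  constructor
  · rintro ⟨q, hq, rfl⟩
    exact (hT q).mp hq
  · intro hP
    have := hprime P (Multiset.mem_toFinset.mpr hP)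
    exact ⟨⟨P, this.1, this.2⟩, (hT _).mpr hP, rfl⟩

omit [CharZero K] [FaithfulSMul K[X] F]
  [FiniteDimensional (FractionRing K[X]) F] [Module.Finite K[X] (integralClosure K[X] F)] in
/-- **Dictionary**: the places where `u` is regular are the places of the primes of `S`. -/
theorem bijOn_placeOf :
    Set.BijOn (fun q : HeightOneSpectrum (integralClosure K[X] F) =>
        (Fermat.Agent.Lib.FF.placeOf K q : Place K F)) Set.univ {v | 0 ≤ v.ord u} := by
  refine ⟨?_, ?_, ?_⟩
  · intro q _
    exact ord_nonneg_of_mem _
      (Fermat.Agent.Lib.FF.algebraMap_mem_placeOf q ⟨u, X_mem_closure u hX⟩)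
  · intro q _ q' _ h
    exact Fermat.Agent.Lib.FF.placeOf_injective h
  · intro v hv
    have hv' : 0 ≤ v.ord u := hv
    have hw : ∀ s : integralClosure K[X] F,
        algebraMap (integralClosure K[X] F) F s ∈ v.toValuationSubring := fun s =>
      mem_of_ord_nonneg v (ord_nonneg_of_mem_closure u hX s.2 v hv')
    haveI : Algebra.IsAlgebraic K⟮u⟯ F := Algebra.IsAlgebraic.of_finite _ _
    obtain ⟨a, ha⟩ := exists_ord_sub_pos v u hv'
    have hmem : u - algebraMap K F a ∈ integralClosure K[X] F := by
      have : algebraMap K[X] F (X - C a) = u - algebraMap K F a := by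
        rw [algebraMap_eq_aeval u hX, map_sub, aeval_X, aeval_C]
      rw [← this]
      exact (integralClosure K[X] F).algebraMap_mem _
    have hne0 : (⟨u - algebraMap K F a, hmem⟩ : integralClosure K[X] F) ≠ 0 := by
      intro h
      have h2 : u - algebraMap K F a = 0 := congrArg Subtype.val h
      rw [h2, Place.ord_zero] at ha
      exact lt_irrefl _ ha
    have hne : Fermat.Agent.Lib.FF.center v hw ≠ ⊥ := by
      intro h
      have hx : (⟨u - algebraMap K F a, hmem⟩ : integralClosure K[X] F) ∈
          Fermat.Agent.Lib.FF.center v hw :=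
        (Fermat.Agent.Lib.FF.mem_center_iff_ord_pos v hw hne0).mpr ha
      rw [h, Ideal.mem_bot] at hx
      exact hne0 hx
    exact ⟨⟨Fermat.Agent.Lib.FF.center v hw, inferInstance, hne⟩, Set.mem_univ _,
      Fermat.Agent.Lib.FF.placeOf_center v hw hne⟩

/-- **CH3**.  The degree of the discriminant of a chart basis is the degree of the finite part
of the divisor of `du`. -/
theorem natDegree_discr_eq_finsum :
    {v : Place K F | 0 ≤ v.ord u ∧ v.ordDifferential (D K F u) ≠ 0}.Finite ∧
      ((Algebra.discr K[X] b₀).natDegree : ℤ) =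
        ∑ᶠ v ∈ {v : Place K F | 0 ≤ v.ord u}, v.ordDifferential (D K F u) := by
  have hD : differentIdeal K[X] (integralClosure K[X] F) ≠ ⊥ := differentIdeal_ne_bot
  obtain ⟨hfin, hsum⟩ := finsum_count_eq_card (K := K) (F := F) hD
  have hbij := bijOn_placeOf (K := K) u hX
  have hcount := count_differentIdeal_eq_ordDifferential (K := K) u hX
  constructor
  · refine (hfin.image (fun q => (Fermat.Agent.Lib.FF.placeOf K q : Place K F))).subset ?_
    rintro v ⟨hv, hne⟩
    obtain ⟨q, -, rfl⟩ := hbij.surjOn hv
    refine ⟨q, ?_, rfl⟩
    rw [Function.mem_support, hcount q]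
    exact hne
  · rw [natDegree_discr_eq_card_factors u hX b₀, ← hsum, ← finsum_mem_univ]
    exact finsum_mem_eq_of_bijOn _ hbij fun q _ => hcount q

end Fermat.Agent.Lib.KW

namespace Fermat.Agent.Lib.KW

open AlgebraicCurve Polynomial IntermediateField IsDedekindDomain KaehlerDifferential
open Fermat.Agent.S24.FF

attribute [local instance] FractionRing.liftAlgebra FractionRing.isScalarTower_liftAlgebra

variable {K F : Type*} [Field K] [Field F] [Algebra K F] [IsAlgClosed K] [CharZero K]

/-- **CHART**.  A chart basis with its discriminant polynomial, whose degree is the degree of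
the finite part of `div (du)`. -/
theorem exists_chart (u : F) [IsCoord K u] :
    ∃ (b : Fin (Module.finrank K⟮u⟯ F) → F) (Du : K[X]),
      IsChartBasis K u b ∧ discrF K u b = aeval u Du ∧ Du ≠ 0 ∧
      {v : Place K F | 0 ≤ v.ord u ∧ v.ordDifferential (D K F u) ≠ 0}.Finite ∧
      (Du.natDegree : ℤ) =
        ∑ᶠ v ∈ {v : Place K F | 0 ≤ v.ord u}, v.ordDifferential (D K F u) := by
  letI : Algebra K[X] F := (aeval u).toRingHom.toAlgebra
  haveI : IsScalarTower K K[X] F := IsScalarTower.of_algebraMap_eq fun a => by
    show algebraMap K F a = aeval u (algebraMap K K[X] a)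
    rw [← Polynomial.C_eq_algebraMap, aeval_C]
  have hX : algebraMap K[X] F X = u := aeval_X u
  letI := faithfulSMul_chart u hX
  haveI := finiteDimensional_chart u hX
  haveI := isDedekindDomain_closure u hX
  haveI := isFractionRing_closure u hX
  haveI := finite_closure u hX
  haveI := free_closure u hX
  let b₀ : Module.Basis (Fin (Module.finrank K⟮u⟯ F)) K[X] (integralClosure K[X] F) :=
    Module.finBasisOfFinrankEq K[X] (integralClosure K[X] F) (finrank_closure u hX)
  obtain ⟨hfin, hdeg⟩ := natDegree_discr_eq_finsum u hX b₀
  exact ⟨fun i => (b₀ i : F), Algebra.discr K[X] b₀, isChartBasis_of_basis u hX b₀,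
    discrF_basis u hX b₀, discr_basis_ne_zero u hX b₀, hfin, hdeg⟩

end Fermat.Agent.Lib.KW
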