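import Fermat.Agent.Lib.KW.Defs
import Fermat.Agent.S24.FFIdentity
import Fermat.Agent.S24.FFDegree
import Fermat.Agent.Lib.FF.PrimePlace
import Fermat.Agent.Lib.RR.Zeros

/-!
# Lib/KW — chart setup (pieces CH1, CH2 of CHART)  (helper650)

`u : F` a coordinate (`S24.FF.IsCoord K u`).  We work with an arbitrary `K[X]`-algebra structure
on `F` with `algebraMap K[X] F X = u` (at the use site: `letI := (aeval u).toRingHom.toAlgebra`),
`Frac K[X] = FractionRing K[X]` acting through `FractionRing.liftAlgebra`, and
`S = integralClosure K[X] F`.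

* `algebraMap_eq_aeval`, `smul_eq_aeval_mul`, `faithfulSMul_chart`;
* `fracEquiv : FractionRing K[X] ≃+* K⟮u⟯`, `finiteDimensional_chart`, `finrank_frac`, `trace_frac`;
* `isDedekindDomain_closure`, `isFractionRing_closure`, `finite_closure`, `free_closure`,
  `finrank_closure : finrank K[X] S = finrank K⟮u⟯ F`;
* `mem_closure_iff : f ∈ S ↔ ∀ v, 0 ≤ v.ord u → 0 ≤ v.ord f`;
* **CH1** `isChartBasis_of_basis`: a `K[X]`-basis of `S` is a chart basis (`KW.IsChartBasis`);
* **CH2** `discrF_basis : discrF K u b = aeval u (discr K[X] b)`, `discr_basis_ne_zero`.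
-/

set_option autoImplicit false
set_option linter.unusedSectionVars false
set_option linter.style.haveILetI false

noncomputable section

namespace Fermat.Agent.Lib.KW

open AlgebraicCurve Polynomial IntermediateField IsDedekindDomain
open Fermat.Agent.S24.FF

attribute [local instance] FractionRing.liftAlgebra FractionRing.isScalarTower_liftAlgebra

variable {K F : Type*} [Field K] [Field F] [Algebra K F]
variable (u : F) [Algebra K[X] F] [IsScalarTower K K[X] F]

/-- The `K[X]`-algebra structure is the one given by the coordinate `u`. -/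
theorem algebraMap_eq_aeval (hX : algebraMap K[X] F X = u) (p : K[X]) :
    algebraMap K[X] F p = aeval u p := by
  have h : (IsScalarTower.toAlgHom K K[X] F) = aeval u := by
    apply Polynomial.algHom_ext
    rw [aeval_X]
    exact hX
  exact congrArg (fun φ : K[X] →ₐ[K] F => φ p) h

theorem smul_eq_aeval_mul (hX : algebraMap K[X] F X = u) (p : K[X]) (f : F) :
    p • f = aeval u p * f := by
  rw [Algebra.smul_def, algebraMap_eq_aeval u hX]

theorem algebraMap_injective_of_transcendental (hX : algebraMap K[X] F X = u)
    (hu : Transcendental K u) : Function.Injective (algebraMap K[X] F) := by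
  intro p q h
  rw [algebraMap_eq_aeval u hX, algebraMap_eq_aeval u hX] at h
  exact transcendental_iff_injective.mp hu h

theorem faithfulSMul_of_transcendental (hX : algebraMap K[X] F X = u)
    (hu : Transcendental K u) : FaithfulSMul K[X] F :=
  (faithfulSMul_iff_algebraMap_injective K[X] F).mpr
    (algebraMap_injective_of_transcendental u hX hu)

section frac

variable (hX : algebraMap K[X] F X = u) (hu : Transcendental K u)

/-- `FractionRing K[X] → F` is `K`-linear. -/
theorem isScalarTower_frac [FaithfulSMul K[X] F] : IsScalarTower K (FractionRing K[X]) F :=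
  IsScalarTower.of_algebraMap_eq fun a => by
    rw [IsScalarTower.algebraMap_apply K K[X] F, IsScalarTower.algebraMap_apply K K[X]
      (FractionRing K[X]), ← IsScalarTower.algebraMap_apply K[X] (FractionRing K[X]) F]

variable [FaithfulSMul K[X] F]

include hX in
theorem algebraMap_frac_mem (r : FractionRing K[X]) :
    algebraMap (FractionRing K[X]) F r ∈ K⟮u⟯ := by
  obtain ⟨p, q, hq, rfl⟩ := IsFractionRing.div_surjective (A := K[X]) r
  rw [map_div₀, ← IsScalarTower.algebraMap_apply, ← IsScalarTower.algebraMap_apply,
    algebraMap_eq_aeval u hX, algebraMap_eq_aeval u hX]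
  have h : ∀ g : K[X], aeval u g ∈ K⟮u⟯ := fun g =>
    IntermediateField.algebra_adjoin_le_adjoin K _ (Polynomial.aeval_mem_adjoin_singleton K u)
  exact div_mem (h p) (h q)

include hX in
theorem exists_algebraMap_frac_eq (c : K⟮u⟯) :
    ∃ r : FractionRing K[X], algebraMap (FractionRing K[X]) F r = c := by
  haveI := isScalarTower_frac (K := K) (F := F)
  let φ : FractionRing K[X] →ₐ[K] F := IsScalarTower.toAlgHom K (FractionRing K[X]) F
  have hle : K⟮u⟯ ≤ φ.fieldRange := by
    rw [IntermediateField.adjoin_simple_le_iff]
    refine ⟨algebraMap K[X] (FractionRing K[X]) X, ?_⟩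
    show algebraMap (FractionRing K[X]) F (algebraMap K[X] (FractionRing K[X]) X) = u
    rw [← IsScalarTower.algebraMap_apply, hX]
  obtain ⟨r, hr⟩ := hle c.2
  exact ⟨r, hr⟩

/-- The isomorphism `FractionRing K[X] ≃ K(u)`. -/
def fracEquiv : FractionRing K[X] ≃+* K⟮u⟯ :=
  RingEquiv.ofBijective
    ((algebraMap (FractionRing K[X]) F).codRestrict K⟮u⟯.toSubfield.toSubring
      (fun r => algebraMap_frac_mem u hX r))
    ⟨fun a b h => (algebraMap (FractionRing K[X]) F).injective (congrArg Subtype.val h),
      fun c => by
        obtain ⟨r, hr⟩ := exists_algebraMap_frac_eq u hX c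
        exact ⟨r, Subtype.ext hr⟩⟩

theorem coe_fracEquiv (r : FractionRing K[X]) :
    ((fracEquiv u hX r : K⟮u⟯) : F) = algebraMap (FractionRing K[X]) F r := rfl

include hX

theorem algebraMap_comp_fracEquiv :
    (algebraMap K⟮u⟯ F).comp (fracEquiv u hX : FractionRing K[X] →+* K⟮u⟯) =
      (RingEquiv.refl F : F →+* F).comp (algebraMap (FractionRing K[X]) F) := by
  ext r
  rfl

theorem finiteDimensional_frac [FiniteDimensional K⟮u⟯ F] :
    FiniteDimensional (FractionRing K[X]) F :=
  Module.Finite.of_equiv_equiv (fracEquiv u hX).symm (RingEquiv.refl F) (by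
    ext c
    obtain ⟨r, rfl⟩ := (fracEquiv u hX).surjective c
    simp [coe_fracEquiv])

theorem finrank_frac : Module.finrank (FractionRing K[X]) F = Module.finrank K⟮u⟯ F :=
  Algebra.finrank_eq_of_equiv_equiv (fracEquiv u hX) (RingEquiv.refl F)
    (algebraMap_comp_fracEquiv u hX)

theorem trace_frac (z : F) :
    algebraMap (FractionRing K[X]) F (Algebra.trace (FractionRing K[X]) F z) = trF K u z := by
  have h := Algebra.trace_eq_of_equiv_equiv (fracEquiv u hX) (RingEquiv.refl F)
    (algebraMap_comp_fracEquiv u hX) z
  rw [h, trF, ← coe_fracEquiv u hX, RingEquiv.apply_symm_apply]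
  rfl

end frac

section closure

variable (hX : algebraMap K[X] F X = u) [hc : IsCoord K u] [CharZero K]

include hX hc

theorem faithfulSMul_chart : FaithfulSMul K[X] F :=
  faithfulSMul_of_transcendental u hX hc.transcendental

theorem finiteDimensional_chart :
    letI := faithfulSMul_chart u hX
    FiniteDimensional (FractionRing K[X]) F := by
  letI := faithfulSMul_chart u hX
  exact finiteDimensional_frac u hX

theorem isDedekindDomain_closure : IsDedekindDomain (integralClosure K[X] F) := by
  letI := faithfulSMul_chart u hX
  haveI := finiteDimensional_chart u hX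
  exact integralClosure.isDedekindDomain K[X] (FractionRing K[X]) F

theorem isFractionRing_closure : IsFractionRing (integralClosure K[X] F) F := by
  letI := faithfulSMul_chart u hX
  haveI := finiteDimensional_chart u hX
  exact integralClosure.isFractionRing_of_finite_extension (FractionRing K[X]) F

theorem finite_closure : Module.Finite K[X] (integralClosure K[X] F) := by
  letI := faithfulSMul_chart u hX
  haveI := finiteDimensional_chart u hX
  exact IsIntegralClosure.finite K[X] (FractionRing K[X]) F (integralClosure K[X] F)

theorem finrank_closure :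
    Module.finrank K[X] (integralClosure K[X] F) = Module.finrank K⟮u⟯ F := by
  letI := faithfulSMul_chart u hX
  haveI := finiteDimensional_chart u hX
  rw [IsIntegralClosure.rank (A := K[X]) (K := FractionRing K[X]) (L := F)
    (C := integralClosure K[X] F), finrank_frac u hX]

theorem free_closure : Module.Free K[X] (integralClosure K[X] F) := by
  letI := faithfulSMul_chart u hX
  haveI := finiteDimensional_chart u hX
  exact IsIntegralClosure.module_free (A := K[X]) (K := FractionRing K[X]) (L := F)
    (C := integralClosure K[X] F)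

omit [CharZero K] hc in
/-- Functions integral over `K[u]` are regular wherever `u` is. -/
theorem ord_nonneg_of_mem_closure {f : F} (hf : f ∈ integralClosure K[X] F)
    (v : Place K F) (hv : 0 ≤ v.ord u) : 0 ≤ v.ord f := by
  let φ : K[X] →+* v.toValuationSubring :=
    { toFun := fun p => ⟨aeval u p, Fermat.Agent.Lib.RR.aeval_mem v hv p⟩
      map_one' := Subtype.ext (map_one _)
      map_mul' := fun _ _ => Subtype.ext (map_mul _ _ _)
      map_zero' := Subtype.ext (map_zero _)
      map_add' := fun _ _ => Subtype.ext (map_add _ _ _) }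
  obtain ⟨p, hpm, hp⟩ := hf
  have hint' : IsIntegral v.toValuationSubring f := by
    refine ⟨p.map φ, hpm.map φ, ?_⟩
    rw [← hp, Polynomial.eval₂_map]
    congr 1
    ext q
    · simp [φ, algebraMap_eq_aeval u hX]
    · simp [φ, algebraMap_eq_aeval u hX]
  obtain ⟨y, hy⟩ := IsIntegrallyClosed.isIntegral_iff.mp hint'
  rw [← hy]
  exact Fermat.Agent.S24.FF.ord_nonneg_of_mem v y.2

omit hX hc [CharZero K] in
theorem isScalarTower_closure : IsScalarTower K (integralClosure K[X] F) F :=
  inferInstance

omit hc [CharZero K] in
theorem X_mem_closure : u ∈ integralClosure K[X] F := by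
  rw [← hX]
  exact (integralClosure K[X] F).algebraMap_mem X

/-- Functions regular wherever `u` is are integral over `K[u]`. -/
theorem mem_closure_of_ord_nonneg {f : F}
    (hf : ∀ v : Place K F, 0 ≤ v.ord u → 0 ≤ v.ord f) : f ∈ integralClosure K[X] F := by
  haveI := isDedekindDomain_closure u hX
  haveI := isFractionRing_closure u hX
  haveI := isScalarTower_closure (K := K) (F := F)
  have h := HeightOneSpectrum.mem_integers_of_valuation_le_one
    (R := integralClosure K[X] F) F f (fun q => by
      have hu : 0 ≤ (Fermat.Agent.Lib.FF.placeOf K q : Place K F).ord u :=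
        Fermat.Agent.S24.FF.ord_nonneg_of_mem _
          (Fermat.Agent.Lib.FF.algebraMap_mem_placeOf q ⟨u, X_mem_closure u hX⟩)
      have := hf _ hu
      rw [← Fermat.Agent.Lib.FF.mem_placeOf_iff (K := K)]
      exact Fermat.Agent.S24.FF.mem_of_ord_nonneg _ this)
  obtain ⟨y, hy⟩ := h
  rw [← hy]
  exact y.2

theorem mem_closure_iff (f : F) :
    f ∈ integralClosure K[X] F ↔ ∀ v : Place K F, 0 ≤ v.ord u → 0 ≤ v.ord f :=
  ⟨fun hf v hv => ord_nonneg_of_mem_closure u hX hf v hv, mem_closure_of_ord_nonneg u hX⟩

section basis

variable {ι : Type*} [Fintype ι] (b₀ : Module.Basis ι K[X] (integralClosure K[X] F))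

omit hc [CharZero K] in
theorem coe_sum_smul (p : ι → K[X]) :
    ((∑ i, p i • b₀ i : integralClosure K[X] F) : F) = ∑ i, aeval u (p i) * (b₀ i : F) := by
  rw [AddSubmonoidClass.coe_finsetSum]
  refine Finset.sum_congr rfl fun i _ => ?_
  rw [← algebraMap_eq_aeval u hX, ← Algebra.smul_def]
  rfl

/-- **CH1**.  A `K[X]`-basis of the integral closure is a chart basis. -/
theorem isChartBasis_of_basis : IsChartBasis K u (fun i => (b₀ i : F)) where
  indep p hp := by
    rw [← coe_sum_smul u hX b₀ p] at hp
    have h0 : (∑ i, p i • b₀ i : integralClosure K[X] F) = 0 := Subtype.ext hp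
    have := Fintype.linearIndependent_iff.mp b₀.linearIndependent p h0
    funext i
    exact this i
  mem_iff f := by
    rw [← mem_closure_iff u hX]
    constructor
    · intro hf
      refine ⟨fun i => b₀.repr ⟨f, hf⟩ i, ?_⟩
      rw [← coe_sum_smul u hX b₀, b₀.sum_repr]
    · rintro ⟨p, rfl⟩
      rw [← coe_sum_smul u hX b₀]
      exact Subtype.coe_prop _

variable [DecidableEq ι]

theorem trace_closure (x : integralClosure K[X] F) :
    aeval u (Algebra.trace K[X] (integralClosure K[X] F) x) = trF K u (x : F) := by
  letI := faithfulSMul_chart u hX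
  haveI := finiteDimensional_chart u hX
  haveI := free_closure u hX
  haveI := finite_closure u hX
  haveI : IsLocalization (Algebra.algebraMapSubmonoid (integralClosure K[X] F)
      (nonZeroDivisors K[X])) F :=
    IsIntegralClosure.isLocalization K[X] (FractionRing K[X]) F (integralClosure K[X] F)
  have h := Algebra.trace_localization K[X] (nonZeroDivisors K[X])
    (Rₘ := FractionRing K[X]) (Sₘ := F) x
  rw [← trace_frac u hX, ← algebraMap_eq_aeval u hX,
    IsScalarTower.algebraMap_apply K[X] (FractionRing K[X]) F, ← h]
  rfl

/-- **CH2a**.  The discriminant of a chart basis is the polynomial discriminant. -/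
theorem discrF_basis :
    discrF K u (fun i => (b₀ i : F)) = aeval u (Algebra.discr K[X] b₀) := by
  rw [discrF, Algebra.discr_def, ← algebraMap_eq_aeval u hX, RingHom.map_det]
  congr 1
  ext i j
  rw [Matrix.of_apply, RingHom.mapMatrix_apply, Matrix.map_apply, Algebra.traceMatrix_apply,
    Algebra.traceForm_apply, algebraMap_eq_aeval u hX, trace_closure u hX]
  rfl

/-- **CH2b**.  The discriminant of a chart basis is nonzero. -/
theorem discr_basis_ne_zero : Algebra.discr K[X] b₀ ≠ 0 := by
  letI := faithfulSMul_chart u hX
  haveI := finiteDimensional_chart u hX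
  haveI : IsLocalization (Algebra.algebraMapSubmonoid (integralClosure K[X] F)
      (nonZeroDivisors K[X])) F :=
    IsIntegralClosure.isLocalization K[X] (FractionRing K[X]) F (integralClosure K[X] F)
  have h1 := Algebra.discr_localizationLocalization K[X] (nonZeroDivisors K[X])
    (Rₘ := FractionRing K[X]) F b₀
  have h2 := Algebra.discr_not_zero_of_basis (FractionRing K[X])
    (b₀.localizationLocalization (FractionRing K[X]) (nonZeroDivisors K[X]) F)
  intro h0
  rw [h1, h0, map_zero] at h2
  exact h2 rfl

end basis

end closure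

end Fermat.Agent.Lib.KW
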