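import Mathlib
import Fermat.Prelude.Def_AlgebraicCurve_CanonicalDivisor
import Fermat.Prelude.Def_AlgebraicCurve_Repartitions

/-!
# Lib/KW — bridge between the Kähler genus and the adelic genus `genusFF`  (helper650)

Instance-free interface used by all KW pieces.

* `IsChartBasis K u b` : `b` is a `K[u]`-basis of the ring `B_u` of functions regular at every
  place where `u` is regular (`= ` integral closure of `K[u]` in `F`), stated with places only.
* `trF K u z` : the trace `Tr_{F/K(u)} z`, as an element of `F`.
* `discrF K u b` : the discriminant `det (Tr_{F/K(u)} (b i * b j))`, as an element of `F`.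
-/

set_option autoImplicit false

noncomputable section

namespace Fermat.Agent.Lib.KW

open AlgebraicCurve Polynomial IntermediateField

variable (K : Type*) {F : Type*} [Field K] [Field F] [Algebra K F]

/-- `b` is a `K[u]`-basis of `B_u = {f | f regular wherever u is regular}`. -/
structure IsChartBasis {ι : Type*} [Fintype ι] (u : F) (b : ι → F) : Prop where
  /-- `b` is linearly independent over `K[u]` -/
  indep : ∀ p : ι → K[X], ∑ i, aeval u (p i) * b i = 0 → p = 0
  /-- the `K[u]`-span of `b` is the set of functions regular at all places where `u` is -/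
  mem_iff : ∀ f : F, (∀ v : Place K F, 0 ≤ v.ord u → 0 ≤ v.ord f) ↔
    ∃ p : ι → K[X], f = ∑ i, aeval u (p i) * b i

/-- The trace of `F / K(u)`, with values in `F`. -/
def trF (u : F) (z : F) : F := ((Algebra.trace K⟮u⟯ F z : K⟮u⟯) : F)

/-- The discriminant of a family with respect to the trace form of `F / K(u)`, in `F`. -/
def discrF {ι : Type*} [Fintype ι] [DecidableEq ι] (u : F) (b : ι → F) : F :=
  (Matrix.of fun i j => trF K u (b i * b j)).det

end Fermat.Agent.Lib.KW
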