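import Mathlib
import Fermat.Agent.A2.H733.IndexDegree

/-!
# Lib/KW — piece TWO: the abstract two-chart lemma  (helper650)

`F ⊇ K` fields, `s ∈ F` nonzero, `t = s⁻¹`; `b, b' : ι → F` with `b` independent over `K[s]`,
`b'` independent over `K[t]`, and

* `t ^ m * b i = ∑ j, Tt i j (t) * b' j`   (`Tt` a matrix of polynomials),
* `s ^ N * b' j = ∑ i, Ts j i (s) * b i`.

Then with `B_s = ⊕ K[s] b_i` and `B_t = ⊕ K[t] b'_j` (as `K`-subspaces of `F`):

`finrank_inf_eq : dim_K (B_s ∩ s ^ m B_t) = n + deg det Tt`.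

Proof: χ-lemma `finrank_inf_of_le_sup` with `M = B_s`, `L = ⊕ K[t] b_i ⊆ L' = s ^ m B_t ⊆ M + L`;
`M ∩ L = ⊕ K b_i`; `L' / L ≅ K[X]^ι / (row space of Tt)`, whose dimension is `deg det Tt` by the
index lemma `Fermat.Agent.A2.H733.finrank_quotient_eq_natDegree_det`.

In the application `B_s ∩ s ^ m B_t = L(m (s)_∞)`.
-/

set_option autoImplicit false
set_option linter.unusedSectionVars false

open Polynomial

namespace Fermat.Agent.Lib.KW

section chi

variable {K V : Type*} [Field K] [AddCommGroup V] [Module K V]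

/-- χ-lemma: if `L ≤ L' ≤ M ⊔ L` then `(M ⊓ L') / (M ⊓ L) ≅ L' / L`. -/
theorem finrank_inf_of_le_sup (M L L' : Submodule K V) (hLL' : L ≤ L') (hL' : L' ≤ M ⊔ L)
    [Module.Finite K ↥(M ⊓ L)] [Module.Finite K (↥L' ⧸ L.comap L'.subtype)] :
    Module.Finite K ↥(M ⊓ L') ∧
      Module.finrank K ↥(M ⊓ L') =
        Module.finrank K ↥(M ⊓ L) + Module.finrank K (↥L' ⧸ L.comap L'.subtype) := by
  -- the map `M ⊓ L' → L' / L`
  let ι' : ↥(M ⊓ L') →ₗ[K] ↥L' := Submodule.inclusion inf_le_right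
  let φ : ↥(M ⊓ L') →ₗ[K] (↥L' ⧸ L.comap L'.subtype) := (L.comap L'.subtype).mkQ ∘ₗ ι'
  have hsurj : Function.Surjective φ := by
    intro y
    obtain ⟨⟨y, hy⟩, rfl⟩ := Submodule.Quotient.mk_surjective _ y
    obtain ⟨a, ha, l, hl, hal⟩ := Submodule.mem_sup.mp (hL' hy)
    have haL' : a ∈ L' := by
      have : a = y - l := by rw [← hal]; abel
      rw [this]; exact L'.sub_mem hy (hLL' hl)
    refine ⟨⟨a, ha, haL'⟩, ?_⟩
    show Submodule.Quotient.mk _ = Submodule.Quotient.mk _
    rw [Submodule.Quotient.eq]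
    show (⟨a, haL'⟩ - ⟨y, hy⟩ : ↥L').1 ∈ L
    have : a - y = -l := by rw [← hal]; abel
    show a - y ∈ L
    rw [this]; exact L.neg_mem hl
  -- the kernel is `M ⊓ L`
  let κ : ↥(M ⊓ L) →ₗ[K] ↥(M ⊓ L') := Submodule.inclusion (inf_le_inf_left M hLL')
  have hκ : Function.Injective κ := Submodule.inclusion_injective _
  have hker : LinearMap.range κ = LinearMap.ker φ := by
    ext ⟨x, hxM, hxL'⟩
    constructor
    · rintro ⟨⟨z, hzM, hzL⟩, hz⟩
      have hzx : z = x := congrArg Subtype.val hz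
      subst hzx
      rw [LinearMap.mem_ker]
      show Submodule.Quotient.mk _ = 0
      rw [Submodule.Quotient.mk_eq_zero]
      exact hzL
    · intro hx
      rw [LinearMap.mem_ker] at hx
      have hx' : Submodule.Quotient.mk (p := L.comap L'.subtype) (⟨x, hxL'⟩ : ↥L') = 0 := hx
      rw [Submodule.Quotient.mk_eq_zero] at hx'
      exact ⟨⟨x, hxM, hx'⟩, rfl⟩
  have hfinker : Module.Finite K ↥(LinearMap.ker φ) := by
    rw [← hker]
    exact Module.Finite.range κ
  have hfin : Module.Finite K ↥(M ⊓ L') := by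
    have e := φ.quotKerEquivOfSurjective hsurj
    have : Module.Finite K (↥(M ⊓ L') ⧸ LinearMap.ker φ) := Module.Finite.equiv e.symm
    exact Module.Finite.of_submodule_quotient (LinearMap.ker φ)
  refine ⟨hfin, ?_⟩
  have h1 := LinearMap.finrank_range_add_finrank_ker φ
  have h2 : Module.finrank K ↥(LinearMap.range φ) =
      Module.finrank K (↥L' ⧸ L.comap L'.subtype) := by
    rw [LinearMap.range_eq_top.mpr hsurj]; exact finrank_top _ _
  have h3 : Module.finrank K ↥(LinearMap.ker φ) = Module.finrank K ↥(M ⊓ L) := by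
    rw [← hker]
    exact (LinearEquiv.ofInjective κ hκ).finrank_eq.symm
  omega

end chi

section poly

variable {K F : Type*} [Field K] [Field F] [Algebra K F]

/-- `(reflect d q)(s) = s ^ d * q(s⁻¹)` for `deg q ≤ d`. -/
theorem aeval_reflect {s : F} (hs : s ≠ 0) {d : ℕ} {q : K[X]} (hq : q.natDegree ≤ d) :
    aeval s (reflect d q) = s ^ d * aeval s⁻¹ q := by
  let _ : Invertible (s⁻¹) := invertibleOfNonzero (inv_ne_zero hs)
  have h := eval₂_reflect_mul_pow (algebraMap K F) (s⁻¹) d q hq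
  have h2 : ⅟(s⁻¹) = s := by
    rw [invOf_eq_inv, inv_inv]
  rw [h2] at h
  rw [aeval_def, aeval_def, ← h, mul_comm, mul_assoc, ← mul_pow, inv_mul_cancel₀ hs, one_pow,
    mul_one]

/-- `s⁻¹ ^ d * G(s) ∈ K[s] + K[s⁻¹]`. -/
theorem exists_inv_pow_mul_aeval {s : F} (hs : s ≠ 0) (G : K[X]) (d : ℕ) :
    ∃ P Q : K[X], s⁻¹ ^ d * aeval s G = aeval s P + aeval s⁻¹ Q := by
  have hmonic : (X ^ d : K[X]).Monic := monic_X_pow d
  refine ⟨G /ₘ X ^ d, reflect d (G %ₘ X ^ d), ?_⟩
  have hdeg : (G %ₘ X ^ d).natDegree ≤ d := by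
    rcases Nat.eq_zero_or_pos d with hd | hd
    · subst hd
      simp
    · have := natDegree_modByMonic_lt G hmonic (by
        intro h
        have := congrArg natDegree h
        simp at this
        omega)
      rw [natDegree_X_pow] at this
      exact this.le
  have h1 := aeval_reflect (K := K) (inv_ne_zero hs) hdeg
  rw [inv_inv] at h1
  rw [h1]
  conv_lhs => rw [← modByMonic_add_div G (X ^ d)]
  rw [map_add, map_mul, map_pow, aeval_X, mul_add, ← mul_assoc, ← mul_pow, inv_mul_cancel₀ hs,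
    one_pow, one_mul, add_comm]

end poly

section two

variable {K F : Type*} [Field K] [Field F] [Algebra K F] {ι : Type*} [Fintype ι]

/-- The `K`-linear map `p ↦ ∑ i, p i (u) * b i`. -/
noncomputable def chartMap (u : F) (b : ι → F) : (ι → K[X]) →ₗ[K] F where
  toFun p := ∑ i, aeval u (p i) * b i
  map_add' p q := by simp [add_mul, Finset.sum_add_distrib]
  map_smul' c p := by
    simp only [Pi.smul_apply, map_smul, RingHom.id_apply, Finset.smul_sum, smul_mul_assoc]

theorem chartMap_apply (u : F) (b : ι → F) (p : ι → K[X]) :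
    chartMap u b p = ∑ i, aeval u (p i) * b i := rfl

variable (s : F) (hs : s ≠ 0) (b : ι → F)
  (hb : ∀ p : ι → K[X], ∑ i, aeval s (p i) * b i = 0 → p = 0)

include hs hb

/-- `b` is also independent over `K[s⁻¹]`. -/
theorem indep_inv (q : ι → K[X]) (hq : ∑ i, aeval s⁻¹ (q i) * b i = 0) : q = 0 := by
  classical
  set d := Finset.univ.sup (fun i => (q i).natDegree) with hd
  have hdi : ∀ i, (q i).natDegree ≤ d := fun i => Finset.le_sup (f := fun i => (q i).natDegree)
    (Finset.mem_univ i)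
  have h1 : ∑ i, aeval s (reflect d (q i)) * b i = 0 := by
    have : ∑ i, aeval s (reflect d (q i)) * b i = s ^ d * ∑ i, aeval s⁻¹ (q i) * b i := by
      rw [Finset.mul_sum]
      refine Finset.sum_congr rfl fun i _ => ?_
      rw [aeval_reflect hs (hdi i), mul_assoc]
    rw [this, hq, mul_zero]
  have h2 := hb (fun i => reflect d (q i)) h1
  funext i
  have := congrFun h2 i
  simpa [reflect_eq_zero_iff] using this

/-- An element of `(⊕ K[s] b_i) ∩ (⊕ K[s⁻¹] b_i)` has constant coefficients. -/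
theorem const_of_chartMap_eq (p q : ι → K[X])
    (h : chartMap s b p = chartMap s⁻¹ b q) : ∀ i, p i = C ((p i).coeff 0) := by
  classical
  set d := Finset.univ.sup (fun i => (q i).natDegree) with hd
  have hdi : ∀ i, (q i).natDegree ≤ d := fun i => Finset.le_sup (f := fun i => (q i).natDegree)
    (Finset.mem_univ i)
  have h1 : ∑ i, aeval s (X ^ d * p i - reflect d (q i)) * b i = 0 := by
    have e1 : ∑ i, aeval s (X ^ d * p i - reflect d (q i)) * b i
        = s ^ d * chartMap s b p - s ^ d * chartMap s⁻¹ b q := by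
      rw [chartMap_apply, chartMap_apply, Finset.mul_sum, Finset.mul_sum,
        ← Finset.sum_sub_distrib]
      refine Finset.sum_congr rfl fun i _ => ?_
      rw [map_sub, map_mul, map_pow, aeval_X, aeval_reflect hs (hdi i)]
      ring
    rw [e1, h, sub_self]
  have h2 := hb _ h1
  intro i
  have h3 : X ^ d * p i = reflect d (q i) := by
    have := congrFun h2 i
    simpa [sub_eq_zero] using this
  ext j
  rcases Nat.eq_zero_or_pos j with hj | hj
  · subst hj; simp
  · rw [coeff_C, if_neg hj.ne']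
    have h4 : (X ^ d * p i).coeff (d + j) = (reflect d (q i)).coeff (d + j) := by rw [h3]
    rw [coeff_X_pow_mul', if_pos (Nat.le_add_right d j), Nat.add_sub_cancel_left,
      coeff_reflect] at h4
    rw [h4]
    have hrev : revAt d (d + j) = d + j := revAt_eq_self_of_lt (by omega)
    rw [hrev]
    exact coeff_eq_zero_of_natDegree_lt (by have := hdi i; omega)

omit hs hb in
theorem chartMap_const (u : F) (c : ι → K) :
    chartMap u b (fun i => C (c i)) = ∑ i, c i • b i := by
  rw [chartMap_apply]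
  refine Finset.sum_congr rfl fun i _ => ?_
  rw [aeval_C, Algebra.smul_def]

/-- `(⊕ K[s] b_i) ∩ (⊕ K[s⁻¹] b_i) = ⊕ K b_i` has dimension `n`. -/
theorem finrank_inf_chart :
    Module.Finite K ↥(LinearMap.range (chartMap (K := K) s b) ⊓
        LinearMap.range (chartMap (K := K) s⁻¹ b)) ∧
      Module.finrank K ↥(LinearMap.range (chartMap (K := K) s b) ⊓
        LinearMap.range (chartMap (K := K) s⁻¹ b)) = Fintype.card ι := by
  classical
  let cst : (ι → K) →ₗ[K] F :=
    { toFun := fun c => ∑ i, c i • b i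
      map_add' := fun c c' => by simp [add_smul, Finset.sum_add_distrib]
      map_smul' := fun a c => by simp [Finset.smul_sum, mul_smul] }
  have hcst : ∀ c, cst c = ∑ i, c i • b i := fun _ => rfl
  have hinj : Function.Injective cst := by
    rw [← LinearMap.ker_eq_bot, LinearMap.ker_eq_bot']
    intro c hc
    rw [hcst, ← chartMap_const b s, chartMap_apply] at hc
    have := hb _ hc
    funext i
    have h2 := congrFun this i
    simpa using h2
  have hrange : LinearMap.range cst = LinearMap.range (chartMap (K := K) s b) ⊓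
        LinearMap.range (chartMap (K := K) s⁻¹ b) := by
    apply le_antisymm
    · rintro _ ⟨c, rfl⟩
      refine ⟨⟨fun i => C (c i), ?_⟩, ⟨fun i => C (c i), ?_⟩⟩
      · rw [chartMap_const, hcst]
      · rw [chartMap_const, hcst]
    · rintro f ⟨⟨p, hp⟩, ⟨q, hq⟩⟩
      have hpc := const_of_chartMap_eq s hs b hb p q (hp.trans hq.symm)
      refine ⟨fun i => (p i).coeff 0, ?_⟩
      rw [hcst, ← chartMap_const b s, ← hp]
      congr 1
      funext i
      exact (hpc i).symm
  rw [← hrange]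
  refine ⟨Module.Finite.range cst, ?_⟩
  rw [← (LinearEquiv.ofInjective cst hinj).finrank_eq, Module.finrank_pi]

variable [DecidableEq ι] (b' : ι → F) (m : ℕ) (Tt : Matrix ι ι K[X])
  (hT : ∀ i, s⁻¹ ^ m * b i = ∑ j, aeval s⁻¹ (Tt i j) * b' j)

include hT

omit hs hb in
/-- `t ^ m * (∑ q_i(t) b_i) = ∑ (q Tt)_j(t) b'_j`. -/
theorem inv_pow_mul_chartMap (q : ι → K[X]) :
    s⁻¹ ^ m * chartMap s⁻¹ b q = chartMap s⁻¹ b' (Matrix.vecMul q Tt) := by
  rw [chartMap_apply, chartMap_apply, Finset.mul_sum]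
  have h1 : ∀ i, s⁻¹ ^ m * (aeval s⁻¹ (q i) * b i)
      = ∑ j, aeval s⁻¹ (q i * Tt i j) * b' j := by
    intro i
    rw [mul_left_comm, hT i, Finset.mul_sum]
    refine Finset.sum_congr rfl fun j _ => ?_
    rw [map_mul, mul_assoc]
  simp_rw [h1]
  rw [Finset.sum_comm]
  refine Finset.sum_congr rfl fun j _ => ?_
  rw [← Finset.sum_mul, ← map_sum]
  rfl

theorem vecMul_injective_of : Function.Injective (fun q : ι → K[X] => Matrix.vecMul q Tt) := by
  intro q q' h
  have h1 : Matrix.vecMul (q - q') Tt = 0 := by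
    rw [Matrix.sub_vecMul]; exact sub_eq_zero.mpr h
  have h2 := inv_pow_mul_chartMap s b b' m Tt hT (q - q')
  rw [h1, map_zero] at h2
  have h3 : chartMap (K := K) s⁻¹ b (q - q') = 0 := by
    rcases mul_eq_zero.mp h2 with h | h
    · exact absurd h (pow_ne_zero _ (inv_ne_zero hs))
    · exact h
  have := indep_inv s hs b hb (q - q') h3
  exact sub_eq_zero.mp this

theorem det_ne_zero_of : Tt.det ≠ 0 := by
  intro h0
  obtain ⟨v, hv, hv0⟩ := Matrix.exists_vecMul_eq_zero_iff.mpr h0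
  apply hv
  apply vecMul_injective_of s hs b hb b' m Tt hT
  show Matrix.vecMul v Tt = Matrix.vecMul 0 Tt
  rw [hv0, Matrix.zero_vecMul]

omit hs hb in
/-- `⊕ K[t] b_i ⊆ s ^ m (⊕ K[t] b'_j)`. -/
theorem range_le_comap :
    LinearMap.range (chartMap (K := K) s⁻¹ b) ≤
      (LinearMap.range (chartMap (K := K) s⁻¹ b')).comap (LinearMap.mulLeft K (s⁻¹ ^ m)) := by
  rintro _ ⟨q, rfl⟩
  rw [Submodule.mem_comap, LinearMap.mulLeft_apply, inv_pow_mul_chartMap s b b' m Tt hT]
  exact ⟨_, rfl⟩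

omit hb hT in
/-- `s ^ m (⊕ K[t] b'_j) ⊆ (⊕ K[s] b_i) + (⊕ K[t] b_i)`. -/
theorem comap_le_sup (N : ℕ) (Ts : Matrix ι ι K[X])
    (hS : ∀ j, s ^ N * b' j = ∑ i, aeval s (Ts j i) * b i) :
    (LinearMap.range (chartMap (K := K) s⁻¹ b')).comap (LinearMap.mulLeft K (s⁻¹ ^ m)) ≤
      LinearMap.range (chartMap (K := K) s b) ⊔ LinearMap.range (chartMap (K := K) s⁻¹ b) := by
  intro f hf
  rw [Submodule.mem_comap, LinearMap.mulLeft_apply] at hf
  obtain ⟨q, hq⟩ := hf
  have hsm : s ^ m * s⁻¹ ^ m = 1 := by rw [← mul_pow, mul_inv_cancel₀ hs, one_pow]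
  have hsN : s⁻¹ ^ N * s ^ N = 1 := by rw [← mul_pow, inv_mul_cancel₀ hs, one_pow]
  have hf1 : f = s ^ m * chartMap s⁻¹ b' q := by
    rw [hq, ← mul_assoc, hsm, one_mul]
  have hb'j : ∀ j, b' j = s⁻¹ ^ N * ∑ i, aeval s (Ts j i) * b i := by
    intro j
    rw [← hS j, ← mul_assoc, hsN, one_mul]
  -- the coefficients
  have hc : ∀ j i, ∃ P Q : K[X],
      s ^ m * aeval s⁻¹ (q j) * s⁻¹ ^ N * aeval s (Ts j i) = aeval s P + aeval s⁻¹ Q := by
    intro j i
    obtain ⟨P, Q, hPQ⟩ := exists_inv_pow_mul_aeval (K := K) hs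
      (X ^ m * reflect (q j).natDegree (q j) * Ts j i) (N + (q j).natDegree)
    refine ⟨P, Q, ?_⟩
    rw [← hPQ, map_mul, map_mul, map_pow, aeval_X, aeval_reflect hs le_rfl, pow_add]
    have hd : s⁻¹ ^ (q j).natDegree * s ^ (q j).natDegree = 1 := by
      rw [← mul_pow, inv_mul_cancel₀ hs, one_pow]
    calc s ^ m * aeval s⁻¹ (q j) * s⁻¹ ^ N * aeval s (Ts j i)
        = s ^ m * aeval s⁻¹ (q j) * s⁻¹ ^ N * aeval s (Ts j i) *
            (s⁻¹ ^ (q j).natDegree * s ^ (q j).natDegree) := by rw [hd, mul_one]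
      _ = _ := by ring
  choose P Q hPQ using hc
  have hf2 : f = chartMap s b (fun i => ∑ j, P j i) + chartMap s⁻¹ b (fun i => ∑ j, Q j i) := by
    rw [hf1, chartMap_apply, chartMap_apply, chartMap_apply, Finset.mul_sum,
      ← Finset.sum_add_distrib]
    have h1 : ∀ j, s ^ m * (aeval s⁻¹ (q j) * b' j)
        = ∑ i, (aeval s (P j i) + aeval s⁻¹ (Q j i)) * b i := by
      intro j
      rw [hb'j j, Finset.mul_sum, Finset.mul_sum, Finset.mul_sum]
      refine Finset.sum_congr rfl fun i _ => ?_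
      rw [← hPQ j i]
      ring
    simp_rw [h1]
    rw [Finset.sum_comm]
    refine Finset.sum_congr rfl fun i _ => ?_
    rw [map_sum, map_sum, ← add_mul, ← Finset.sum_add_distrib, Finset.sum_mul]
  rw [hf2]
  exact Submodule.add_mem _ (Submodule.mem_sup_left ⟨_, rfl⟩) (Submodule.mem_sup_right ⟨_, rfl⟩)

section index

omit hs hb hT

/-- The quotient of `k[X]^ι` by the row space of a matrix with nonzero determinant. -/
theorem finrank_quotient_range_vecMulLinear {k : Type*} [Field k] (T : Matrix ι ι k[X])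
    (hT : T.det ≠ 0) :
    Module.Finite k ((ι → k[X]) ⧸ LinearMap.range (Matrix.vecMulLinear T)) ∧
      Module.finrank k ((ι → k[X]) ⧸ LinearMap.range (Matrix.vecMulLinear T)) =
        T.det.natDegree := by
  have hinj : Function.Injective (Matrix.vecMulLinear T) := by
    rw [← LinearMap.ker_eq_bot, LinearMap.ker_eq_bot']
    intro v hv
    by_contra hv0
    exact hT (Matrix.exists_vecMul_eq_zero_iff.mp ⟨v, hv0, hv⟩)
  let e := LinearEquiv.ofInjective (Matrix.vecMulLinear T) hinj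
  let bN : Module.Basis ι k[X] (LinearMap.range (Matrix.vecMulLinear T)) :=
    (Pi.basisFun k[X] ι).map e
  have hidx := Fermat.Agent.A2.H733.finrank_quotient_eq_natDegree_det (k := k)
    (Pi.basisFun k[X] ι) (LinearMap.range (Matrix.vecMulLinear T)) bN
  have hdet : (Pi.basisFun k[X] ι).det (fun i => (bN i : ι → k[X])) = T.det := by
    rw [Module.Basis.det_apply, ← Matrix.det_transpose]
    congr 1
    ext i j
    simp [bN, e, Module.Basis.toMatrix_apply]
  rw [hdet] at hidx
  refine ⟨?_, hidx⟩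
  have hrank : Module.finrank k[X] (LinearMap.range (Matrix.vecMulLinear T)) =
      Module.finrank k[X] (ι → k[X]) := by
    rw [Module.finrank_eq_card_basis bN, Module.finrank_eq_card_basis (Pi.basisFun k[X] ι)]
  let E := (LinearMap.range (Matrix.vecMulLinear T)).quotientEquivPiSpan
    (Pi.basisFun k[X] ι) hrank
  have hfin : ∀ i, Module.Finite k (k[X] ⧸ Ideal.span
      ({Submodule.smithNormalFormCoeffs (Pi.basisFun k[X] ι) hrank i} : Set k[X])) :=
    fun i => PowerBasis.finite <| AdjoinRoot.powerBasis <|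
      Submodule.smithNormalFormCoeffs_ne_zero (Pi.basisFun k[X] ι) hrank i
  exact Module.Finite.equiv (E.restrictScalars k).symm

end index

/-- `s ^ m (⊕ K[t] b'_j) / (⊕ K[t] b_i)` has dimension `deg det Tt`. -/
theorem finrank_quotient_comap
    (hb' : ∀ q : ι → K[X], ∑ j, aeval s⁻¹ (q j) * b' j = 0 → q = 0) :
    Module.Finite K
        (↥((LinearMap.range (chartMap (K := K) s⁻¹ b')).comap (LinearMap.mulLeft K (s⁻¹ ^ m))) ⧸
          (LinearMap.range (chartMap (K := K) s⁻¹ b)).comap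
            ((LinearMap.range (chartMap (K := K) s⁻¹ b')).comap
              (LinearMap.mulLeft K (s⁻¹ ^ m))).subtype) ∧
      Module.finrank K
        (↥((LinearMap.range (chartMap (K := K) s⁻¹ b')).comap (LinearMap.mulLeft K (s⁻¹ ^ m))) ⧸
          (LinearMap.range (chartMap (K := K) s⁻¹ b)).comap
            ((LinearMap.range (chartMap (K := K) s⁻¹ b')).comap
              (LinearMap.mulLeft K (s⁻¹ ^ m))).subtype) = Tt.det.natDegree := by
  set L' : Submodule K F :=
    (LinearMap.range (chartMap (K := K) s⁻¹ b')).comap (LinearMap.mulLeft K (s⁻¹ ^ m)) with hL'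
  set Λ : Submodule K F := LinearMap.range (chartMap (K := K) s⁻¹ b) with hΛ
  have hsm : s⁻¹ ^ m * s ^ m = 1 := by rw [← mul_pow, inv_mul_cancel₀ hs, one_pow]
  have hsm' : s ^ m * s⁻¹ ^ m = 1 := by rw [← mul_pow, mul_inv_cancel₀ hs, one_pow]
  have hdet := det_ne_zero_of s hs b hb b' m Tt hT
  -- the parametrisation of `L'`
  let g : (ι → K[X]) →ₗ[K] ↥L' :=
    LinearMap.codRestrict L' (LinearMap.mulLeft K (s ^ m) ∘ₗ chartMap (K := K) s⁻¹ b') (by
      intro q
      rw [hL', Submodule.mem_comap, LinearMap.mulLeft_apply, LinearMap.comp_apply,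
        LinearMap.mulLeft_apply, ← mul_assoc, hsm, one_mul]
      exact ⟨q, rfl⟩)
  have hg : ∀ q, (g q : F) = s ^ m * chartMap (K := K) s⁻¹ b' q := fun _ => rfl
  have hginj : Function.Injective g := by
    rw [← LinearMap.ker_eq_bot, LinearMap.ker_eq_bot']
    intro q hq
    have h1 : (g q : F) = 0 := by rw [hq]; rfl
    rw [hg] at h1
    rcases mul_eq_zero.mp h1 with h | h
    · exact absurd h (pow_ne_zero _ hs)
    · exact hb' q h
  have hgsurj : Function.Surjective g := by
    rintro ⟨f, hf⟩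
    have hf' := hf
    rw [hL', Submodule.mem_comap, LinearMap.mulLeft_apply] at hf'
    obtain ⟨q, hq⟩ := hf'
    refine ⟨q, Subtype.ext ?_⟩
    rw [hg, hq, ← mul_assoc, hsm', one_mul]
  let ge : (ι → K[X]) ≃ₗ[K] ↥L' := LinearEquiv.ofBijective g ⟨hginj, hgsurj⟩
  have hge : ∀ q, (ge q : F) = s ^ m * chartMap (K := K) s⁻¹ b' q := fun _ => rfl
  have hkey : ∀ q : ι → K[X], (ge (Matrix.vecMul q Tt) : F) = chartMap (K := K) s⁻¹ b q := by
    intro q
    rw [hge, ← inv_pow_mul_chartMap s b b' m Tt hT, ← mul_assoc, hsm', one_mul]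
  have hmap : ((LinearMap.range (Matrix.vecMulLinear Tt)).restrictScalars K).map
      (ge : (ι → K[X]) →ₗ[K] ↥L') = Λ.comap L'.subtype := by
    ext x
    constructor
    · rintro ⟨_, ⟨q, rfl⟩, rfl⟩
      rw [Submodule.mem_comap, Submodule.subtype_apply]
      show (ge (Matrix.vecMul q Tt) : F) ∈ Λ
      rw [hkey]
      exact ⟨q, rfl⟩
    · intro hx
      rw [Submodule.mem_comap, Submodule.subtype_apply] at hx
      obtain ⟨q, hq⟩ := hx
      refine ⟨Matrix.vecMul q Tt, ⟨q, rfl⟩, Subtype.ext ?_⟩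
      show (ge (Matrix.vecMul q Tt) : F) = x
      rw [hkey, hq]
  let e1 := Submodule.Quotient.equiv _ _ ge hmap
  let e2 := Submodule.Quotient.restrictScalarsEquiv K (LinearMap.range (Matrix.vecMulLinear Tt))
  obtain ⟨hfin, hrank⟩ := finrank_quotient_range_vecMulLinear (k := K) Tt hdet
  have e3 := e2.symm.trans e1
  exact ⟨Module.Finite.equiv e3, by rw [← e3.finrank_eq, hrank]⟩

/-- **TWO** (abstract two-chart lemma).  `B_s = ⊕ K[s] b_i`, `B_t = ⊕ K[t] b'_j`, `t = s⁻¹`,
`t ^ m b_i = ∑ Tt_ij(t) b'_j`, `s ^ N b'_j = ∑ Ts_ji(s) b_i`.  Then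
`dim_K (B_s ∩ s ^ m B_t) = n + deg det Tt`. -/
theorem finrank_inf_eq
    (hb' : ∀ q : ι → K[X], ∑ j, aeval s⁻¹ (q j) * b' j = 0 → q = 0)
    (N : ℕ) (Ts : Matrix ι ι K[X])
    (hS : ∀ j, s ^ N * b' j = ∑ i, aeval s (Ts j i) * b i) :
    Module.Finite K ↥(LinearMap.range (chartMap (K := K) s b) ⊓
        (LinearMap.range (chartMap (K := K) s⁻¹ b')).comap (LinearMap.mulLeft K (s⁻¹ ^ m))) ∧
      Module.finrank K ↥(LinearMap.range (chartMap (K := K) s b) ⊓
        (LinearMap.range (chartMap (K := K) s⁻¹ b')).comap (LinearMap.mulLeft K (s⁻¹ ^ m))) =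
        Fintype.card ι + Tt.det.natDegree := by
  obtain ⟨hf1, hr1⟩ := finrank_inf_chart s hs b hb
  obtain ⟨hf2, hr2⟩ := finrank_quotient_comap s hs b hb b' m Tt hT hb'
  obtain ⟨hf3, hr3⟩ := finrank_inf_of_le_sup (LinearMap.range (chartMap (K := K) s b))
    (LinearMap.range (chartMap (K := K) s⁻¹ b))
    ((LinearMap.range (chartMap (K := K) s⁻¹ b')).comap (LinearMap.mulLeft K (s⁻¹ ^ m)))
    (range_le_comap s b b' m Tt hT) (comap_le_sup s hs b b' m N Ts hS)
  exact ⟨hf3, by rw [hr3, hr1, hr2]⟩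

end two

end Fermat.Agent.Lib.KW
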